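import Mathlib

/-!
# PROGRAMME I (S33), leaf L14: discretely normed subfields of an ultrametric field

`Ω` an ultrametric normed field, `K' : Subfield Ω`, `w : Ω`.  `IsDiscNormed K' w` says that `K'` is
discretely normed with uniformizer `w`: `w ∈ K'`, `0 < ‖w‖ < 1`, and every `x ∈ K'` with `‖x‖ < 1`
has `‖x‖ ≤ ‖w‖`.

* `IsDiscNormed.exists_zpow_eq`: the value group of `K'` is `‖w‖ ^ ℤ`;
* `IsDiscNormed.closure`: the topological closure `K'.topologicalClosure` is discretely normed with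
  the same uniformizer (and the same value group).

Mathlib only.
-/

set_option autoImplicit false

namespace Fermat.Agent.FF3.Wc

open Filter Topology

variable {Ω : Type*} [NormedField Ω]

/-- `K'` is discretely normed with uniformizer `w`. -/
structure IsDiscNormed (K' : Subfield Ω) (w : Ω) : Prop where
  mem : w ∈ K'
  pos : 0 < ‖w‖
  lt_one : ‖w‖ < 1
  le_of_lt_one : ∀ x ∈ K', ‖x‖ < 1 → ‖x‖ ≤ ‖w‖

namespace IsDiscNormed

variable {K' : Subfield Ω} {w : Ω}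

theorem ne_zero (h : IsDiscNormed K' w) : w ≠ 0 := norm_pos_iff.1 h.pos

/-- An element of the unit ball of `K'` has norm `1` or at most `‖w‖`. -/
theorem norm_eq_one_or_le (h : IsDiscNormed K' w) {x : Ω} (hx : x ∈ K') (hx1 : ‖x‖ ≤ 1) :
    ‖x‖ = 1 ∨ ‖x‖ ≤ ‖w‖ := by
  rcases hx1.lt_or_eq with h1 | h1
  · exact Or.inr (h.le_of_lt_one x hx h1)
  · exact Or.inl h1

end IsDiscNormed

/-- Ultrametric: `‖x - y‖ < ‖y‖` forces `‖x‖ = ‖y‖`. -/
theorem norm_eq_of_norm_sub_lt [IsUltrametricDist Ω] {x y : Ω} (h : ‖x - y‖ < ‖y‖) :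
    ‖x‖ = ‖y‖ := by
  have h1 : ‖x + -y‖ < max ‖x‖ ‖-y‖ := by
    rw [← sub_eq_add_neg, norm_neg]
    exact lt_of_lt_of_le h (le_max_right _ _)
  have := IsUltrametricDist.norm_eq_of_add_norm_lt_max h1
  rwa [norm_neg] at this

namespace IsDiscNormed

variable {K' : Subfield Ω} {w : Ω}

/-- The value group of `K'` is generated by `‖w‖`. -/
theorem exists_zpow_eq (h : IsDiscNormed K' w) {x : Ω} (hx : x ∈ K') (hx0 : x ≠ 0) :
    ∃ n : ℤ, ‖x‖ = ‖w‖ ^ n := by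
  have hw1 : 1 < ‖w‖⁻¹ := (one_lt_inv₀ h.pos).2 h.lt_one
  have hxpos : 0 < ‖x‖⁻¹ := inv_pos.2 (norm_pos_iff.2 hx0)
  obtain ⟨n, hn1, hn2⟩ := exists_mem_Ico_zpow hxpos hw1
  -- `‖w‖⁻¹ ^ n ≤ ‖x‖⁻¹ < ‖w‖⁻¹ ^ (n+1)`: the element `z = x / w ^ n` has `‖w‖ < ‖z‖ ≤ 1`
  refine ⟨n, ?_⟩
  have hwn : ‖w‖ ^ n ≠ 0 := zpow_ne_zero _ h.pos.ne'
  have hwnpos : 0 < ‖w‖ ^ n := zpow_pos h.pos _
  set z : Ω := x * (w ^ n)⁻¹ with hz
  have hzK : z ∈ K' := K'.mul_mem hx (K'.inv_mem (K'.zpow_mem h.mem n))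
  have hznorm : ‖z‖ = ‖x‖ * (‖w‖ ^ n)⁻¹ := by
    rw [hz, norm_mul, norm_inv, norm_zpow]
  have hz1 : ‖z‖ ≤ 1 := by
    rw [hznorm]
    have : ‖x‖ ≤ ‖w‖ ^ n := by
      have h3 : (‖w‖ ^ n)⁻¹ ≤ ‖x‖⁻¹ := by
        rw [← inv_zpow]; exact hn1
      exact (inv_le_inv₀ hwnpos (norm_pos_iff.2 hx0)).1 h3
    calc ‖x‖ * (‖w‖ ^ n)⁻¹ ≤ ‖w‖ ^ n * (‖w‖ ^ n)⁻¹ :=
          mul_le_mul_of_nonneg_right this (inv_nonneg.2 hwnpos.le)
      _ = 1 := mul_inv_cancel₀ hwn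
  have hzw : ‖w‖ < ‖z‖ := by
    rw [hznorm]
    have h4 : ‖x‖⁻¹ < (‖w‖ ^ (n + 1))⁻¹ := by
      rw [← inv_zpow]; exact hn2
    have h5 : ‖w‖ ^ (n + 1) < ‖x‖ :=
      (inv_lt_inv₀ (norm_pos_iff.2 hx0) (zpow_pos h.pos _)).1 h4
    rw [zpow_add_one₀ h.pos.ne'] at h5
    calc ‖w‖ = ‖w‖ ^ n * ‖w‖ * (‖w‖ ^ n)⁻¹ := by
          field_simp
      _ < ‖x‖ * (‖w‖ ^ n)⁻¹ := mul_lt_mul_of_pos_right h5 (inv_pos.2 hwnpos)
  rcases h.norm_eq_one_or_le hzK hz1 with h6 | h6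
  · rw [hznorm] at h6
    field_simp at h6
    exact h6
  · exact absurd h6 (not_le.2 hzw)

end IsDiscNormed

/-- Elements of the closure of `K'` are approximated by elements of `K'`. -/
theorem exists_norm_sub_lt {K' : Subfield Ω} {y : Ω}
    (hy : y ∈ K'.topologicalClosure) {ε : ℝ} (hε : 0 < ε) : ∃ x ∈ K', ‖y - x‖ < ε := by
  have hy' : y ∈ closure (K' : Set Ω) := hy
  obtain ⟨x, hx, hxy⟩ := Metric.mem_closure_iff.1 hy' ε hε
  exact ⟨x, hx, by rwa [← dist_eq_norm]⟩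

/-- A nonzero element of the closure of `K'` has the norm of an element of `K'`. -/
theorem exists_norm_eq [IsUltrametricDist Ω] {K' : Subfield Ω} {y : Ω}
    (hy : y ∈ K'.topologicalClosure) (hy0 : y ≠ 0) :
    ∃ x ∈ K', ‖x‖ = ‖y‖ ∧ ‖y - x‖ < ‖y‖ := by
  obtain ⟨x, hx, hxy⟩ := exists_norm_sub_lt hy (norm_pos_iff.2 hy0)
  refine ⟨x, hx, ?_, hxy⟩
  have h1 : ‖x - y‖ < ‖y‖ := by rwa [norm_sub_rev]
  exact norm_eq_of_norm_sub_lt h1

namespace IsDiscNormed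

variable {K' : Subfield Ω} {w : Ω} [IsUltrametricDist Ω]

/-- The closure of a discretely normed subfield is discretely normed, with the same uniformizer. -/
protected theorem closure (h : IsDiscNormed K' w) : IsDiscNormed K'.topologicalClosure w where
  mem := K'.le_topologicalClosure h.mem
  pos := h.pos
  lt_one := h.lt_one
  le_of_lt_one := by
    intro y hy hy1
    rcases eq_or_ne y 0 with rfl | hy0
    · simp
    · obtain ⟨x, hx, hxy, -⟩ := exists_norm_eq hy hy0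
      rw [← hxy]
      exact h.le_of_lt_one x hx (by rwa [hxy])

/-- The value group of the closure is still `‖w‖ ^ ℤ`. -/
theorem exists_zpow_eq_closure (h : IsDiscNormed K' w) {y : Ω} (hy : y ∈ K'.topologicalClosure)
    (hy0 : y ≠ 0) : ∃ n : ℤ, ‖y‖ = ‖w‖ ^ n :=
  h.closure.exists_zpow_eq hy hy0

end IsDiscNormed

end Fermat.Agent.FF3.Wc
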