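import Mathlib
import Fermat.Agent.FF3.Wc.Basic

/-!
# PROGRAMME I (S33), leaf L14: the unit ball of a discretely normed subfield is a DVR

`Ω` an ultrametric normed field, `K : Subfield Ω` discretely normed with uniformizer `w`
(`IsDiscNormed K w`).  `unitBall K : Subring Ω` is the closed unit ball of `K`.

* `isUnit_iff`: the units are the elements of norm `1`;
* `irreducible_unif`, `exists_eq_pow_mul`: `w` is irreducible and every nonzero element is
  `w ^ n * unit`;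
* `isDiscreteValuationRing`: `unitBall K` is a discrete valuation ring;
* `mem_span_pow_iff`, `maximalIdeal_eq`, `mem_maximalIdeal_iff`: the ideals `(w ^ n)` are the balls
  of radius `‖w‖ ^ n`.

Applies to `K'` itself and to its closure `Kc = K'.topologicalClosure` (`IsDiscNormed.closure`).
Mathlib only.
-/

set_option autoImplicit false

namespace Fermat.Agent.FF3.Wc

variable {Ω : Type*} [NormedField Ω] [IsUltrametricDist Ω]

/-- The closed unit ball of a subfield of an ultrametric normed field, as a subring. -/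
def unitBall (K : Subfield Ω) : Subring Ω where
  carrier := {x | x ∈ K ∧ ‖x‖ ≤ 1}
  mul_mem' := fun {a b} ha hb => ⟨K.mul_mem ha.1 hb.1, by
    rw [norm_mul]; exact mul_le_one₀ ha.2 (norm_nonneg _) hb.2⟩
  one_mem' := ⟨K.one_mem, by simp⟩
  add_mem' := fun {a b} ha hb => ⟨K.add_mem ha.1 hb.1,
    (IsUltrametricDist.norm_add_le_max a b).trans (max_le ha.2 hb.2)⟩
  zero_mem' := ⟨K.zero_mem, by simp⟩
  neg_mem' := fun {a} ha => ⟨K.neg_mem ha.1, by rw [norm_neg]; exact ha.2⟩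

theorem mem_unitBall {K : Subfield Ω} {x : Ω} : x ∈ unitBall K ↔ x ∈ K ∧ ‖x‖ ≤ 1 := Iff.rfl

theorem unitBall_mono {K K₂ : Subfield Ω} (h : K ≤ K₂) : unitBall K ≤ unitBall K₂ :=
  fun _ hx => ⟨h hx.1, hx.2⟩

theorem norm_le_one {K : Subfield Ω} (x : unitBall K) : ‖(x : Ω)‖ ≤ 1 := x.2.2

theorem coe_mem {K : Subfield Ω} (x : unitBall K) : (x : Ω) ∈ K := x.2.1

namespace IsDiscNormed

variable {K : Subfield Ω} {w : Ω}

/-- The uniformizer, as an element of the unit ball. -/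
def unif (h : IsDiscNormed K w) : unitBall K := ⟨w, h.mem, h.lt_one.le⟩

@[simp] theorem coe_unif (h : IsDiscNormed K w) : (h.unif : Ω) = w := rfl

theorem unif_ne_zero (h : IsDiscNormed K w) : h.unif ≠ 0 := by
  intro h0
  exact h.ne_zero (congrArg Subtype.val h0)

/-- The units of the unit ball are the elements of norm one. -/
theorem isUnit_iff (x : unitBall K) : IsUnit x ↔ ‖(x : Ω)‖ = 1 := by
  constructor
  · rintro ⟨u, rfl⟩
    have h1 : ‖((u : unitBall K) : Ω)‖ ≤ 1 := norm_le_one _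
    have h2 : ‖(((u⁻¹ : (unitBall K)ˣ) : unitBall K) : Ω)‖ ≤ 1 := norm_le_one _
    have h3 : ((u : unitBall K) : Ω) * (((u⁻¹ : (unitBall K)ˣ) : unitBall K) : Ω) = 1 :=
      congrArg Subtype.val u.mul_inv
    have h4 : ‖((u : unitBall K) : Ω)‖ * ‖(((u⁻¹ : (unitBall K)ˣ) : unitBall K) : Ω)‖ = 1 := by
      rw [← norm_mul, h3, norm_one]
    nlinarith [norm_nonneg ((u : unitBall K) : Ω),
      norm_nonneg (((u⁻¹ : (unitBall K)ˣ) : unitBall K) : Ω)]
  · intro hx
    have hx0 : (x : Ω) ≠ 0 := by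
      intro h0; rw [h0, norm_zero] at hx; exact zero_ne_one hx
    refine isUnit_iff_exists_inv.2 ⟨⟨(x : Ω)⁻¹, K.inv_mem x.2.1, by rw [norm_inv, hx, inv_one]⟩, ?_⟩
    apply Subtype.ext
    simp [hx0]

/-- A non-unit has norm at most `‖w‖`. -/
theorem norm_le_of_not_isUnit (h : IsDiscNormed K w) {x : unitBall K} (hx : ¬ IsUnit x) :
    ‖(x : Ω)‖ ≤ ‖w‖ := by
  rcases h.norm_eq_one_or_le x.2.1 x.2.2 with h1 | h1
  · exact absurd ((isUnit_iff x).2 h1) hx
  · exact h1

theorem not_isUnit_iff (h : IsDiscNormed K w) (x : unitBall K) :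
    ¬ IsUnit x ↔ ‖(x : Ω)‖ ≤ ‖w‖ := by
  refine ⟨h.norm_le_of_not_isUnit, fun hx hu => ?_⟩
  rw [isUnit_iff] at hu
  rw [hu] at hx
  exact absurd hx (not_le.2 h.lt_one)

/-- Divisibility by `w ^ n` is a norm condition. -/
theorem pow_unif_dvd_iff (h : IsDiscNormed K w) (n : ℕ) (x : unitBall K) :
    h.unif ^ n ∣ x ↔ ‖(x : Ω)‖ ≤ ‖w‖ ^ n := by
  constructor
  · rintro ⟨y, rfl⟩
    simp only [Subring.coe_mul, Subring.coe_pow, coe_unif, norm_mul, norm_pow]
    exact mul_le_of_le_one_right (pow_nonneg (norm_nonneg _) _) (norm_le_one y)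
  · intro hx
    have hwn : (w ^ n : Ω) ≠ 0 := pow_ne_zero _ h.ne_zero
    refine ⟨⟨(x : Ω) * (w ^ n)⁻¹, K.mul_mem x.2.1 (K.inv_mem (K.pow_mem h.mem n)), ?_⟩, ?_⟩
    · rw [norm_mul, norm_inv, norm_pow]
      have hpos : 0 < ‖w‖ ^ n := pow_pos h.pos n
      calc ‖(x : Ω)‖ * (‖w‖ ^ n)⁻¹ ≤ ‖w‖ ^ n * (‖w‖ ^ n)⁻¹ :=
            mul_le_mul_of_nonneg_right hx (inv_nonneg.2 hpos.le)
        _ = 1 := mul_inv_cancel₀ hpos.ne'
    · apply Subtype.ext
      simp only [Subring.coe_mul, Subring.coe_pow, coe_unif]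
      field_simp

/-- The uniformizer is irreducible. -/
theorem irreducible_unif (h : IsDiscNormed K w) : Irreducible h.unif := by
  refine ⟨?_, ?_⟩
  · rw [h.not_isUnit_iff]
    exact le_rfl
  · intro a b hab
    by_contra hcon
    obtain ⟨hna, hnb⟩ := not_or.1 hcon
    have ha := h.norm_le_of_not_isUnit hna
    have hb := h.norm_le_of_not_isUnit hnb
    have h1 : ‖w‖ = ‖(a : Ω)‖ * ‖(b : Ω)‖ := by
      rw [← norm_mul]
      have := congrArg Subtype.val hab
      simp only [coe_unif, Subring.coe_mul] at this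
      rw [this]
    have h2 : ‖(a : Ω)‖ * ‖(b : Ω)‖ ≤ ‖w‖ * ‖w‖ :=
      mul_le_mul ha hb (norm_nonneg _) h.pos.le
    have h3 : ‖w‖ * ‖w‖ < ‖w‖ := by
      have := mul_lt_mul_of_pos_left h.lt_one h.pos
      simpa using this
    linarith

/-- Every nonzero element of the unit ball is `w ^ n` times a unit. -/
theorem exists_eq_pow_mul (h : IsDiscNormed K w) {x : unitBall K} (hx : x ≠ 0) :
    ∃ (n : ℕ) (u : (unitBall K)ˣ), x = h.unif ^ n * u := by
  have hx0 : (x : Ω) ≠ 0 := fun h0 => hx (Subtype.ext h0)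
  obtain ⟨m, hm⟩ := h.exists_zpow_eq x.2.1 hx0
  -- `m ≥ 0` since `‖x‖ ≤ 1`
  have hm0 : 0 ≤ m := by
    by_contra hneg'
    have hneg : m < 0 := not_le.1 hneg'
    have h1 : 1 < ‖w‖ ^ m := by
      have h2 : ‖w‖ ^ m = (‖w‖⁻¹) ^ (-m) := by rw [inv_zpow', neg_neg]
      rw [h2]
      exact one_lt_zpow₀ ((one_lt_inv₀ h.pos).2 h.lt_one) (by omega)
    have := x.2.2
    rw [hm] at this
    linarith
  obtain ⟨n, rfl⟩ := Int.eq_ofNat_of_zero_le hm0
  rw [zpow_natCast] at hm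
  obtain ⟨y, hy⟩ := (h.pow_unif_dvd_iff n x).2 hm.le
  have hyu : IsUnit y := by
    rw [isUnit_iff]
    have h1 : ‖(x : Ω)‖ = ‖w‖ ^ n * ‖(y : Ω)‖ := by
      rw [hy]; simp [norm_mul, norm_pow]
    rw [hm] at h1
    have hpos : 0 < ‖w‖ ^ n := pow_pos h.pos n
    have : ‖w‖ ^ n * ‖(y : Ω)‖ = ‖w‖ ^ n * 1 := by rw [mul_one]; exact h1.symm
    exact mul_left_cancel₀ hpos.ne' this
  exact ⟨n, hyu.unit, by rw [hy]; rfl⟩

/-- The unit ball of a discretely normed subfield is a discrete valuation ring. -/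
theorem isDiscreteValuationRing (h : IsDiscNormed K w) : IsDiscreteValuationRing (unitBall K) := by
  refine IsDiscreteValuationRing.ofHasUnitMulPowIrreducibleFactorization
    ⟨h.unif, h.irreducible_unif, ?_⟩
  intro x hx
  obtain ⟨n, u, hu⟩ := h.exists_eq_pow_mul hx
  exact ⟨n, ⟨u, hu.symm⟩⟩

/-- The ideal `(w) ^ n` is the ball of radius `‖w‖ ^ n`. -/
theorem mem_span_pow_iff (h : IsDiscNormed K w) (n : ℕ) (x : unitBall K) :
    x ∈ Ideal.span {h.unif} ^ n ↔ ‖(x : Ω)‖ ≤ ‖w‖ ^ n := by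
  rw [Ideal.span_singleton_pow, Ideal.mem_span_singleton, h.pow_unif_dvd_iff]

theorem mem_span_iff (h : IsDiscNormed K w) (x : unitBall K) :
    x ∈ Ideal.span {h.unif} ↔ ‖(x : Ω)‖ ≤ ‖w‖ := by
  have := h.mem_span_pow_iff 1 x
  simpa using this

/-- The maximal ideal is generated by the uniformizer. -/
theorem maximalIdeal_eq (h : IsDiscNormed K w) :
    haveI := h.isDiscreteValuationRing
    IsLocalRing.maximalIdeal (unitBall K) = Ideal.span {h.unif} := by
  have := h.isDiscreteValuationRing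
  ext x
  rw [IsLocalRing.mem_maximalIdeal, mem_nonunits_iff, h.not_isUnit_iff, h.mem_span_iff]

/-- The maximal ideal is the open unit ball. -/
theorem mem_maximalIdeal_iff (h : IsDiscNormed K w) (x : unitBall K) :
    haveI := h.isDiscreteValuationRing
    x ∈ IsLocalRing.maximalIdeal (unitBall K) ↔ ‖(x : Ω)‖ < 1 := by
  have := h.isDiscreteValuationRing
  rw [IsLocalRing.mem_maximalIdeal, mem_nonunits_iff, isUnit_iff]
  exact ⟨fun hx => lt_of_le_of_ne (norm_le_one x) hx, fun hx => hx.ne⟩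

end IsDiscNormed

end Fermat.Agent.FF3.Wc
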