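import Mathlib
import Fermat.Agent.FF3.Wc.Ring

/-!
# PROGRAMME I (S33), leaf L14: completeness of the unit ball of a closed subfield

`Ω` a complete ultrametric normed field, `K : Subfield Ω` closed and discretely normed with
uniformizer `w`.  Then `unitBall K` is `w`-adically complete:

* `exists_limit`: elementary sequence form — a sequence with `‖f (n+1) - f n‖ ≤ ‖w‖ ^ n` has a
  limit `L` in the unit ball with `‖L - f n‖ ≤ ‖w‖ ^ n`;
* `isAdicComplete_span`, `isAdicComplete_maximalIdeal`: `IsAdicComplete` for the ideal `(w)`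
  (= the maximal ideal).

Mathlib only.
-/

set_option autoImplicit false

namespace Fermat.Agent.FF3.Wc

open Filter Topology

variable {Ω : Type*} [NormedField Ω] [IsUltrametricDist Ω]

namespace IsDiscNormed

variable {K : Subfield Ω} {w : Ω}

/-- Ultrametric telescoping: increments bounded by `‖w‖ ^ n` give `‖f m - f n‖ ≤ ‖w‖ ^ n` for
`n ≤ m`. -/
theorem norm_sub_le_of_step (h : IsDiscNormed K w) (f : ℕ → Ω)
    (hf : ∀ n, ‖f (n + 1) - f n‖ ≤ ‖w‖ ^ n) {n m : ℕ} (hnm : n ≤ m) :
    ‖f m - f n‖ ≤ ‖w‖ ^ n := by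
  induction m, hnm using Nat.le_induction with
  | base => simp [pow_nonneg h.pos.le]
  | succ m hm ih =>
    have h1 : f (m + 1) - f n = (f (m + 1) - f m) + (f m - f n) := by ring
    rw [h1]
    refine (IsUltrametricDist.norm_add_le_max _ _).trans (max_le ?_ ih)
    exact (hf m).trans (pow_le_pow_of_le_one h.pos.le h.lt_one.le hm)

variable [CompleteSpace Ω]

/-- **Elementary completeness.**  In the unit ball of a closed discretely normed subfield, a
sequence whose increments are divisible by `w ^ n` converges `w`-adically. -/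
theorem exists_limit (h : IsDiscNormed K w) (hK : IsClosed (K : Set Ω)) (f : ℕ → unitBall K)
    (hf : ∀ n, ‖((f (n + 1) : Ω) - (f n : Ω))‖ ≤ ‖w‖ ^ n) :
    ∃ L : unitBall K, ∀ n, ‖((L : Ω) - (f n : Ω))‖ ≤ ‖w‖ ^ n := by
  set g : ℕ → Ω := fun n => (f n : Ω) with hg
  have hstep : ∀ {n m : ℕ}, n ≤ m → ‖g m - g n‖ ≤ ‖w‖ ^ n :=
    fun hnm => h.norm_sub_le_of_step g hf hnm
  have hcau : CauchySeq g := by
    rw [Metric.cauchySeq_iff']
    intro ε hε
    obtain ⟨N, hN⟩ := exists_pow_lt_of_lt_one hε h.lt_one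
    refine ⟨N, fun n hn => ?_⟩
    rw [dist_eq_norm]
    exact (hstep hn).trans_lt hN
  obtain ⟨l, hl⟩ := cauchySeq_tendsto_of_complete hcau
  have hlK : l ∈ K := hK.mem_of_tendsto hl (Eventually.of_forall fun n => (f n).2.1)
  have hl1 : ‖l‖ ≤ 1 := by
    have : Tendsto (fun n => ‖g n‖) atTop (𝓝 ‖l‖) := (continuous_norm.tendsto l).comp hl
    exact le_of_tendsto' this fun n => (f n).2.2
  refine ⟨⟨l, hlK, hl1⟩, fun n => ?_⟩
  have h1 : Tendsto (fun m => ‖g m - g n‖) atTop (𝓝 ‖l - g n‖) :=
    (continuous_norm.tendsto _).comp (hl.sub_const (g n))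
  exact le_of_tendsto h1 (eventually_atTop.2 ⟨n, fun m hm => hstep hm⟩)

/-- The unit ball of a closed discretely normed subfield is complete for the ideal `(w)`. -/
theorem isAdicComplete_span (h : IsDiscNormed K w) (hK : IsClosed (K : Set Ω)) :
    IsAdicComplete (Ideal.span {h.unif}) (unitBall K) := by
  have hH : IsHausdorff (Ideal.span {h.unif}) (unitBall K) := by
    refine ⟨fun x hx => ?_⟩
    apply Subtype.ext
    rw [Subring.coe_zero, ← norm_le_zero_iff]
    have h1 : ∀ n : ℕ, ‖(x : Ω)‖ ≤ ‖w‖ ^ n := by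
      intro n
      have := hx n
      rw [SModEq.zero, smul_eq_mul, Ideal.mul_top] at this
      exact (h.mem_span_pow_iff n x).1 this
    exact ge_of_tendsto' (tendsto_pow_atTop_nhds_zero_of_lt_one h.pos.le h.lt_one) h1
  have hP : IsPrecomplete (Ideal.span {h.unif}) (unitBall K) := by
    refine ⟨fun f hf => ?_⟩
    have hstep : ∀ n, ‖((f (n + 1) : Ω) - (f n : Ω))‖ ≤ ‖w‖ ^ n := by
      intro n
      have := (hf (Nat.le_succ n)).symm
      rw [SModEq.sub_mem, smul_eq_mul, Ideal.mul_top] at this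
      exact (h.mem_span_pow_iff n _).1 this
    obtain ⟨L, hL⟩ := h.exists_limit hK f hstep
    refine ⟨L, fun n => ?_⟩
    rw [SModEq.sub_mem, smul_eq_mul, Ideal.mul_top, h.mem_span_pow_iff]
    have h2 : ((f n - L : unitBall K) : Ω) = (f n : Ω) - (L : Ω) := rfl
    rw [h2, norm_sub_rev]
    exact hL n
  exact { toIsHausdorff := hH, toIsPrecomplete := hP }

/-- The unit ball of a closed discretely normed subfield is complete for its maximal ideal. -/
theorem isAdicComplete_maximalIdeal (h : IsDiscNormed K w) (hK : IsClosed (K : Set Ω)) :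
    haveI := h.isDiscreteValuationRing
    IsAdicComplete (IsLocalRing.maximalIdeal (unitBall K)) (unitBall K) := by
  have := h.isDiscreteValuationRing
  rw [h.maximalIdeal_eq]
  exact h.isAdicComplete_span hK

end IsDiscNormed

end Fermat.Agent.FF3.Wc
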