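import Mathlib
import Fermat.Agent.FF3.Wc.Complete

/-!
# PROGRAMME I (S33), leaf L14: the closure of a discretely normed subfield (API file)

`Ω` a complete ultrametric normed field, `K' : Subfield Ω` discretely normed with uniformizer `w`
(`h : IsDiscNormed K' w`: `w ∈ K'`, `0 < ‖w‖ < 1`, `x ∈ K'`, `‖x‖ < 1` imply `‖x‖ ≤ ‖w‖`).

* `Kc K' : Subfield Ω := K'.topologicalClosure` — `NormedField`, `IsUltrametricDist` (Mathlib
  instances for subfields / subtypes), `CompleteSpace` (instance below); `h.closure : IsDiscNormed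
  (Kc K') w` (same uniformizer), `h.exists_zpow_eq_closure` (same value group `‖w‖ ^ ℤ`).
* `Wc K' : Subring Ω := unitBall (Kc K')`, with `h.unifC : Wc K'` the uniformizer:
  `isDomain` (Mathlib), `h.isDVR_Wc : IsDiscreteValuationRing (Wc K')`, `h.irreducible_unifC`,
  `h.isAdicComplete_Wc : IsAdicComplete (Ideal.span {h.unifC}) (Wc K')`,
  `h.isAdicComplete_maximalIdeal_Wc`, `h.exists_limit_Wc` (elementary sequence form),
  `h.maximalIdeal_Wc_eq`, `h.mem_span_pow_Wc_iff` (`(w ^ n)` = ball of radius `‖w‖ ^ n`).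
* The residue field does not grow, density modulo `w ^ n`: `exists_residue`, `h.exists_approx`,
  `h.exists_sub_mem_span_pow`; `inclW : unitBall K' →+* Wc K'`.
* Functoriality: `Kc_mono`, `Wc_mono`, `WcMap`.
* `Kc K'` is the fraction field of `Wc K'`: `algebraWcKc`, `isFractionRing_Wc_Kc`.

For a ring homomorphism `φ : K₀ →+* Ω` from a field use `K' := φ.fieldRange`.  Mathlib only.
-/

set_option autoImplicit false
set_option linter.unusedSectionVars false
set_option linter.style.haveILetI false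
set_option linter.dupNamespace false

namespace Fermat.Agent.FF3.Wc

open Filter Topology

variable {Ω : Type*} [NormedField Ω] [IsUltrametricDist Ω]

/-- Ultrametric inequality for differences. -/
theorem norm_sub_le_max_norm (a b : Ω) : ‖a - b‖ ≤ max ‖a‖ ‖b‖ := by
  rw [sub_eq_add_neg]
  exact (IsUltrametricDist.norm_add_le_max a (-b)).trans_eq (by rw [norm_neg])

/-- The closure of a subfield of `Ω`. -/
abbrev Kc (K' : Subfield Ω) : Subfield Ω := K'.topologicalClosure

/-- The unit ball of the closure of a subfield of `Ω`. -/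
abbrev Wc (K' : Subfield Ω) : Subring Ω := unitBall (Kc K')

theorem isClosed_Kc (K' : Subfield Ω) : IsClosed (Kc K' : Set Ω) :=
  K'.isClosed_topologicalClosure

theorem le_Kc (K' : Subfield Ω) : K' ≤ Kc K' := K'.le_topologicalClosure

theorem Kc_mono {K' K'' : Subfield Ω} (h : K' ≤ K'') : Kc K' ≤ Kc K'' :=
  closure_mono h

theorem Wc_mono {K' K'' : Subfield Ω} (h : K' ≤ K'') : Wc K' ≤ Wc K'' :=
  unitBall_mono (Kc_mono h)

/-- Functoriality of `Wc` in the subfield. -/
def WcMap {K' K'' : Subfield Ω} (h : K' ≤ K'') : Wc K' →+* Wc K'' :=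
  Subring.inclusion (Wc_mono h)

@[simp] theorem coe_WcMap {K' K'' : Subfield Ω} (h : K' ≤ K'') (x : Wc K') :
    ((WcMap h x : Wc K'') : Ω) = (x : Ω) := rfl

/-- The unit ball of `K'` inside the unit ball of its closure. -/
def inclW (K' : Subfield Ω) : unitBall K' →+* Wc K' :=
  Subring.inclusion (unitBall_mono (le_Kc K'))

@[simp] theorem coe_inclW (K' : Subfield Ω) (x : unitBall K') :
    ((inclW K' x : Wc K') : Ω) = (x : Ω) := rfl

instance instCompleteSpaceKc [CompleteSpace Ω] (K' : Subfield Ω) : CompleteSpace (Kc K') :=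
  (isClosed_Kc K').completeSpace_coe

/-- The residue field does not grow: every element of `Wc K'` is congruent to an element of the
unit ball of `K'` modulo the open unit ball. -/
theorem exists_residue (K' : Subfield Ω) (y : Wc K') :
    ∃ x ∈ K', ‖x‖ ≤ 1 ∧ ‖(y : Ω) - x‖ < 1 := by
  obtain ⟨x, hx, hxy⟩ := exists_norm_sub_lt y.2.1 one_pos
  refine ⟨x, hx, ?_, hxy⟩
  have h1 : x = (y : Ω) - ((y : Ω) - x) := by ring
  rw [h1]
  exact (norm_sub_le_max_norm _ _).trans (max_le y.2.2 hxy.le)

namespace IsDiscNormed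

variable {K' : Subfield Ω} {w : Ω}

/-- The uniformizer, as an element of `Wc K'`. -/
def unifC (h : IsDiscNormed K' w) : Wc K' := h.closure.unif

@[simp] theorem coe_unifC (h : IsDiscNormed K' w) : (h.unifC : Ω) = w := rfl

theorem inclW_unif (h : IsDiscNormed K' w) : inclW K' h.unif = h.unifC := rfl

theorem isDVR_Wc (h : IsDiscNormed K' w) : IsDiscreteValuationRing (Wc K') :=
  h.closure.isDiscreteValuationRing

theorem isDVR_unitBall (h : IsDiscNormed K' w) : IsDiscreteValuationRing (unitBall K') :=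
  h.isDiscreteValuationRing

theorem irreducible_unifC (h : IsDiscNormed K' w) : Irreducible h.unifC :=
  h.closure.irreducible_unif

theorem mem_span_pow_Wc_iff (h : IsDiscNormed K' w) (n : ℕ) (x : Wc K') :
    x ∈ Ideal.span {h.unifC} ^ n ↔ ‖(x : Ω)‖ ≤ ‖w‖ ^ n :=
  h.closure.mem_span_pow_iff n x

theorem maximalIdeal_Wc_eq (h : IsDiscNormed K' w) :
    haveI := h.isDVR_Wc
    IsLocalRing.maximalIdeal (Wc K') = Ideal.span {h.unifC} :=
  h.closure.maximalIdeal_eq

theorem mem_maximalIdeal_Wc_iff (h : IsDiscNormed K' w) (x : Wc K') :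
    haveI := h.isDVR_Wc
    x ∈ IsLocalRing.maximalIdeal (Wc K') ↔ ‖(x : Ω)‖ < 1 :=
  h.closure.mem_maximalIdeal_iff x

theorem isUnit_Wc_iff (x : Wc K') : IsUnit x ↔ ‖(x : Ω)‖ = 1 :=
  isUnit_iff x

/-- Density modulo `w ^ n`: every element of `Wc K'` is approximated by the unit ball of `K'`. -/
theorem exists_approx (h : IsDiscNormed K' w) (y : Wc K') (n : ℕ) :
    ∃ x : unitBall K', ‖(y : Ω) - (x : Ω)‖ ≤ ‖w‖ ^ n := by
  have hpos : 0 < min 1 (‖w‖ ^ n) := lt_min one_pos (pow_pos h.pos n)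
  obtain ⟨x, hx, hxy⟩ := exists_norm_sub_lt y.2.1 hpos
  have h1 : x = (y : Ω) - ((y : Ω) - x) := by ring
  have hx1 : ‖x‖ ≤ 1 := by
    rw [h1]
    exact (norm_sub_le_max_norm _ _).trans
      (max_le y.2.2 (hxy.le.trans (min_le_left _ _)))
  exact ⟨⟨x, hx, hx1⟩, hxy.le.trans (min_le_right _ _)⟩

/-- Density modulo `w ^ n`, ideal form. -/
theorem exists_sub_mem_span_pow (h : IsDiscNormed K' w) (y : Wc K') (n : ℕ) :
    ∃ x : unitBall K', y - inclW K' x ∈ Ideal.span {h.unifC} ^ n := by
  obtain ⟨x, hx⟩ := h.exists_approx y n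
  exact ⟨x, (h.mem_span_pow_Wc_iff n _).2 hx⟩

/-- `unitBall K' / (w ^ n) → Wc K' / (w ^ n)` is injective: `(w ^ n) Wc ∩ unitBall K' = (w ^ n)`. -/
theorem inclW_mem_span_pow_iff (h : IsDiscNormed K' w) (n : ℕ) (x : unitBall K') :
    inclW K' x ∈ Ideal.span {h.unifC} ^ n ↔ x ∈ Ideal.span {h.unif} ^ n := by
  rw [h.mem_span_pow_Wc_iff, h.mem_span_pow_iff, coe_inclW]

variable [CompleteSpace Ω]

theorem isAdicComplete_Wc (h : IsDiscNormed K' w) :
    IsAdicComplete (Ideal.span {h.unifC}) (Wc K') :=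
  h.closure.isAdicComplete_span (isClosed_Kc K')

theorem isAdicComplete_maximalIdeal_Wc (h : IsDiscNormed K' w) :
    haveI := h.isDVR_Wc
    IsAdicComplete (IsLocalRing.maximalIdeal (Wc K')) (Wc K') :=
  h.closure.isAdicComplete_maximalIdeal (isClosed_Kc K')

/-- Elementary sequence form of the completeness of `Wc K'`. -/
theorem exists_limit_Wc (h : IsDiscNormed K' w) (f : ℕ → Wc K')
    (hf : ∀ n, ‖((f (n + 1) : Ω) - (f n : Ω))‖ ≤ ‖w‖ ^ n) :
    ∃ L : Wc K', ∀ n, ‖((L : Ω) - (f n : Ω))‖ ≤ ‖w‖ ^ n :=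
  h.closure.exists_limit (isClosed_Kc K') f hf

end IsDiscNormed

/-! ### The fraction field -/

section Frac

variable (K : Subfield Ω)

/-- The inclusion of the unit ball of a subfield into the subfield. -/
def unitBallToField : unitBall K →+* K where
  toFun x := ⟨x, x.2.1⟩
  map_one' := rfl
  map_mul' _ _ := rfl
  map_zero' := rfl
  map_add' _ _ := rfl

@[simp] theorem coe_unitBallToField (x : unitBall K) : ((unitBallToField K x : K) : Ω) = x := rfl

/-- `K` as an algebra over its unit ball. -/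
@[instance_reducible]
def algebraUnitBall : Algebra (unitBall K) K := (unitBallToField K).toAlgebra

/-- A subfield is the fraction field of its unit ball. -/
theorem isFractionRing_unitBall :
    letI := algebraUnitBall K
    IsFractionRing (unitBall K) K := by
  letI := algebraUnitBall K
  haveI : FaithfulSMul (unitBall K) K := by
    rw [faithfulSMul_iff_algebraMap_injective]
    intro x y hxy
    apply Subtype.ext
    exact congrArg (fun z : K => (z : Ω)) hxy
  refine IsFractionRing.of_field (unitBall K) K fun z => ?_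
  by_cases hz : ‖(z : Ω)‖ ≤ 1
  · refine ⟨⟨z, z.2, hz⟩, 1, ?_⟩
    apply Subtype.ext
    simp [RingHom.algebraMap_toAlgebra]
  · have hz1 : 1 < ‖(z : Ω)‖ := not_le.1 hz
    have hz0 : (z : Ω) ≠ 0 := by
      intro h0; rw [h0, norm_zero] at hz1; linarith
    refine ⟨1, ⟨(z : Ω)⁻¹, K.inv_mem z.2, ?_⟩, ?_⟩
    · rw [norm_inv]
      exact inv_le_one_of_one_le₀ hz1.le
    · apply Subtype.ext
      simp [RingHom.algebraMap_toAlgebra]

/-- `Kc K'` as an algebra over `Wc K'`. -/
@[instance_reducible]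
def algebraWcKc (K' : Subfield Ω) : Algebra (Wc K') (Kc K') := algebraUnitBall (Kc K')

/-- `Kc K'` is the fraction field of `Wc K'`. -/
theorem isFractionRing_Wc_Kc (K' : Subfield Ω) :
    letI := algebraWcKc K'
    IsFractionRing (Wc K') (Kc K') :=
  isFractionRing_unitBall (Kc K')

end Frac

end Fermat.Agent.FF3.Wc
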